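import Fermat.Agent.S37.H700.Cic
import Fermat.Agent.S14.H366.ValQ

/-!
# S37 / R-a, helper700: valuation rings of `ℚ̄` over a prime have archimedean value group

`L` a field of characteristic zero, algebraic over `ℚ`; `A` a valuation subring lying over the
prime `ℓ`.  Then

* `exists_pow_le_prime` : for a non-unit `a` of `A` some power `a ^ n` is divisible by `ℓ`;
* `exists_prime_pow_le` : every `d ≠ 0` divides some power of `ℓ`;
* **`archVal_of_liesOverPrime`** : `ArchVal A` (the hypothesis of `Cic.lean`).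
-/

set_option autoImplicit false

noncomputable section

namespace Fermat.Agent.S37.H700

open Polynomial Fermat.Agent.S14.H366

variable {L : Type*} [Field L] [CharZero L] [Algebra.IsAlgebraic ℚ L]
  (A : ValuationSubring L) {ℓ : ℕ}

omit [CharZero L] [Algebra.IsAlgebraic ℚ L] in
theorem val_int_le_prime (n : ℤ) (hn : (ℓ : ℤ) ∣ n) :
    A.valuation (n : L) ≤ A.valuation (ℓ : L) := by
  obtain ⟨m, rfl⟩ := hn
  push_cast
  rw [map_mul]
  calc A.valuation (ℓ : L) * A.valuation (m : L)
      ≤ A.valuation (ℓ : L) * 1 := by gcongr; exact val_int_le_one m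
    _ = A.valuation (ℓ : L) := mul_one _

/-- every element is a root of a primitive integer polynomial -/
theorem exists_primitive_aeval_eq_zero (x : L) :
    ∃ p : ℤ[X], p.IsPrimitive ∧ p ≠ 0 ∧ aeval x p = 0 := by
  have halg : IsAlgebraic ℤ x :=
    (IsFractionRing.isAlgebraic_iff ℤ ℚ L).mpr (Algebra.IsAlgebraic.isAlgebraic x)
  obtain ⟨f, hf0, hfx⟩ := halg
  refine ⟨f.primPart, f.isPrimitive_primPart, Polynomial.primPart_ne_zero f, ?_⟩
  have h1 : f = C f.content * f.primPart := f.eq_C_content_mul_primPart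
  rw [h1, map_mul, aeval_C] at hfx
  rcases mul_eq_zero.mp hfx with h | h
  · exfalso
    have : f.content = 0 := by simpa using h
    exact hf0 (Polynomial.content_eq_zero_iff.mp this)
  · exact h

/-- a power of a non-unit is divisible by `ℓ` -/
theorem exists_pow_le_prime (hℓ : ℓ.Prime) (hA : A.LiesOverPrime ℓ) (a : L)
    (ha : a ∈ A.nonunits) : ∃ n : ℕ, A.valuation a ^ n ≤ A.valuation (ℓ : L) := by
  classical
  by_cases ha0 : a = 0
  · refine ⟨1, ?_⟩
    rw [ha0, map_zero, pow_one]
    exact zero_le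
  have hav : A.valuation a < 1 := (ValuationSubring.mem_nonunits_iff (A := A)).mp ha
  have hav0 : 0 < A.valuation a := zero_lt_iff.mpr ((Valuation.ne_zero_iff _).mpr ha0)
  obtain ⟨p, hprim, hp0, hpa⟩ := exists_primitive_aeval_eq_zero a
  have hex : ∃ i, ¬ (ℓ : ℤ) ∣ p.coeff i := by
    by_contra hcon
    push Not at hcon
    have hdvd : C (ℓ : ℤ) ∣ p := by
      rw [Polynomial.C_dvd_iff_dvd_coeff]
      exact hcon
    have hu := hprim _ hdvd
    have := Int.isUnit_iff.mp hu
    have h2 := hℓ.two_le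
    omega
  set i₀ := Nat.find hex with hi₀
  have hi₀spec : ¬ (ℓ : ℤ) ∣ p.coeff i₀ := Nat.find_spec hex
  have hi₀min : ∀ i, i < i₀ → (ℓ : ℤ) ∣ p.coeff i := fun i hi => by
    by_contra h
    exact Nat.find_min hex hi h
  refine ⟨i₀, ?_⟩
  have hi₀le : i₀ ≤ p.natDegree := by
    by_contra h
    push Not at h
    apply hi₀spec
    rw [Polynomial.coeff_eq_zero_of_natDegree_lt h]
    exact dvd_zero _
  -- split the sum
  have hsum : ∑ i ∈ Finset.range (p.natDegree + 1), ((p.coeff i : ℤ) : L) * a ^ i = 0 := by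
    have := hpa
    rw [Polynomial.aeval_eq_sum_range] at this
    simpa [zsmul_eq_mul] using this
  have hmem : i₀ ∈ Finset.range (p.natDegree + 1) := Finset.mem_range.mpr (by omega)
  rw [← Finset.add_sum_erase _ _ hmem] at hsum
  have hT : ((p.coeff i₀ : ℤ) : L) * a ^ i₀ =
      -∑ i ∈ (Finset.range (p.natDegree + 1)).erase i₀, ((p.coeff i : ℤ) : L) * a ^ i :=
    eq_neg_of_add_eq_zero_left hsum
  have hvT : A.valuation (((p.coeff i₀ : ℤ) : L) * a ^ i₀) = A.valuation a ^ i₀ := by
    rw [map_mul, map_pow, val_int_eq_one hℓ hA _ hi₀spec, one_mul]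
  have hbound : ∀ i ∈ (Finset.range (p.natDegree + 1)).erase i₀,
      A.valuation (((p.coeff i : ℤ) : L) * a ^ i) ≤
        max (A.valuation (ℓ : L)) (A.valuation a ^ (i₀ + 1)) := by
    intro i hi
    have hne : i ≠ i₀ := (Finset.mem_erase.mp hi).1
    rw [map_mul, map_pow]
    rcases Nat.lt_or_gt_of_ne hne with hlt | hgt
    · refine le_max_of_le_left ?_
      calc A.valuation ((p.coeff i : ℤ) : L) * A.valuation a ^ i
          ≤ A.valuation (ℓ : L) * 1 :=
            mul_le_mul' (val_int_le_prime A _ (hi₀min i hlt)) (pow_le_one₀ zero_le hav.le)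
        _ = A.valuation (ℓ : L) := mul_one _
    · refine le_max_of_le_right ?_
      calc A.valuation ((p.coeff i : ℤ) : L) * A.valuation a ^ i
          ≤ 1 * A.valuation a ^ (i₀ + 1) :=
            mul_le_mul' (val_int_le_one _)
              (pow_le_pow_of_le_one zero_le hav.le (Nat.succ_le_of_lt hgt))
        _ = A.valuation a ^ (i₀ + 1) := one_mul _
  have hvR : A.valuation (∑ i ∈ (Finset.range (p.natDegree + 1)).erase i₀,
      ((p.coeff i : ℤ) : L) * a ^ i) ≤ max (A.valuation (ℓ : L)) (A.valuation a ^ (i₀ + 1)) :=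
    Valuation.map_sum_le _ hbound
  rw [← hvT, hT, Valuation.map_neg]
  have hlt : A.valuation a ^ (i₀ + 1) < A.valuation a ^ i₀ := by
    rw [pow_succ]
    calc A.valuation a ^ i₀ * A.valuation a < A.valuation a ^ i₀ * 1 := by
          exact mul_lt_mul_of_pos_left hav (pow_pos hav0 _)
      _ = A.valuation a ^ i₀ := mul_one _
  rcases le_max_iff.mp hvR with h | h
  · exact h
  · exfalso
    have h1 : A.valuation (∑ i ∈ (Finset.range (p.natDegree + 1)).erase i₀,
        ((p.coeff i : ℤ) : L) * a ^ i) = A.valuation a ^ i₀ := by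
      rw [← hvT, hT, Valuation.map_neg]
    rw [h1] at h
    exact absurd h (not_le.mpr hlt)

/-- every nonzero element divides a power of `ℓ` -/
theorem exists_prime_pow_le (hℓ : ℓ.Prime) (hA : A.LiesOverPrime ℓ) (d : L) (hd : d ≠ 0) :
    ∃ m : ℕ, A.valuation (ℓ : L) ^ m ≤ A.valuation d := by
  by_cases hdA : d ∈ A
  · obtain ⟨f, -, hf0, hfd⟩ := exists_primitive_aeval_eq_zero d
    obtain ⟨g, hfg, hg⟩ := Polynomial.exists_eq_pow_rootMultiplicity_mul_and_not_dvd f hf0 0
    have hgd : aeval d g = 0 := by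
      rw [hfg, map_mul, map_pow, map_sub, aeval_X, map_zero, map_zero, sub_zero] at hfd
      rcases mul_eq_zero.mp hfd with h | h
      · exact absurd (eq_zero_of_pow_eq_zero h) hd
      · exact h
    have hg0 : g.coeff 0 ≠ 0 := by
      intro h
      apply hg
      rw [map_zero, sub_zero]
      exact Polynomial.X_dvd_iff.mpr h
    have hdecomp : aeval d g = aeval d g.divX * d + ((g.coeff 0 : ℤ) : L) := by
      conv_lhs => rw [← Polynomial.divX_mul_X_add g]
      rw [map_add, map_mul, aeval_X, aeval_C]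
      rfl
    rw [hgd] at hdecomp
    have hg0eq : ((g.coeff 0 : ℤ) : L) = -(aeval d g.divX * d) := by
      rw [eq_neg_iff_add_eq_zero, add_comm]
      exact hdecomp.symm
    obtain ⟨k, hk⟩ := val_int_eq_pow (L := L) hℓ hA (g.coeff 0) hg0
    refine ⟨k, ?_⟩
    rw [← hk, hg0eq, Valuation.map_neg, map_mul]
    calc A.valuation (aeval d g.divX) * A.valuation d ≤ 1 * A.valuation d := by
          gcongr
          exact (A.valuation_le_one_iff _).mpr
            (Fermat.Agent.S54.aeval_mem_valuationSubring A hdA _)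
      _ = A.valuation d := one_mul _
  · refine ⟨0, ?_⟩
    rw [pow_zero]
    have := (A.valuation_le_one_iff d).not.mpr hdA
    exact (not_le.mp this).le

/-- **The value group of a valuation subring of `ℚ̄` over `ℓ` is archimedean.** -/
theorem archVal_of_liesOverPrime (hℓ : ℓ.Prime) (hA : A.LiesOverPrime ℓ) : ArchVal A := by
  intro a ha d hd
  obtain ⟨n, hn⟩ := exists_pow_le_prime A hℓ hA a ha
  obtain ⟨m, hm⟩ := exists_prime_pow_le A hℓ hA d hd
  have hdv : 0 < A.valuation d := zero_lt_iff.mpr ((Valuation.ne_zero_iff _).mpr hd)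
  by_cases ha0 : a = 0
  · refine ⟨1, ?_⟩
    rw [ha0, map_zero, pow_one]
    exact hdv
  have hav : A.valuation a < 1 := (ValuationSubring.mem_nonunits_iff (A := A)).mp ha
  have hav0 : 0 < A.valuation a := zero_lt_iff.mpr ((Valuation.ne_zero_iff _).mpr ha0)
  refine ⟨n * m + 1, ?_⟩
  have h1 : A.valuation a ^ (n * m) ≤ A.valuation d := by
    rw [pow_mul]
    exact (pow_le_pow_left₀ zero_le hn m).trans hm
  rw [pow_succ]
  calc A.valuation a ^ (n * m) * A.valuation a < A.valuation a ^ (n * m) * 1 :=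
        mul_lt_mul_of_pos_left hav (pow_pos hav0 _)
    _ = A.valuation a ^ (n * m) := mul_one _
    _ ≤ A.valuation d := h1

end Fermat.Agent.S37.H700
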