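import Fermat.Agent.S37.H700.Qep
import Fermat.Agent.S37.H700.Arch
import Fermat.Agent.S37.H98.Gen

/-!
# S37 / R-a, helper700: the charts `A[j]`, `A[1/j]` of `X₀(N)` over a valuation ring of `ℚ̄`

UNCONDITIONAL statements for a valuation subring `A` of `ℚ̄` over a prime `ℓ ∤ N`
(`π = IsLocalRing.residue A`, `k = A/𝔪`), for a coordinate `x' ∈ A((q))` (`IsCoord`):
`x' = j` (`isCoord_j`) or any `x'` with `x' · j = 1` (`isCoord_of_mul_eq_one`), more generally any
`x'` with `u(x') j = v(x')`, `ū ≠ 0` (Hauptmoduln).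

`IsChartElt N A x' y` : `y ∈ A((q))` is a modular function of level `N` integral over `A[x']`.

* **`chart_sat`** (G3, saturation): `y ∈ A((q)) ∩ F̄_N`, integral over `ℚ̄[x']` ⟹ `IsChartElt`.
* **`chart_intQ`** (INT-Q): `b ∈ F̄_N` integral over `A[x']` ⟹ `b = coeffMap y`, `IsChartElt y`.
  So the integral closure of `A[x']` in `F̄_N` consists of `A`-integral `q`-series.
* **`chart_ker`** (QEP): `IsChartElt y`, `ȳ = 0` ⟹ `y = μ y'`, `μ ∈ 𝔪`, `IsChartElt y'`, `ȳ' ≠ 0`.
* `chart_red_mem` : reductions of chart elements lie in `F_k` and are integral over `k[x̄']`.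
-/

set_option autoImplicit false
set_option linter.unusedSectionVars false
set_option linter.style.haveILetI false

noncomputable section

namespace Fermat.Agent.S37.H700

open ModularCurve IntermediateField Polynomial Fermat.Agent.S28 Fermat.Agent.S18.H516
open Fermat.Agent.S18.H36

section QepJ

variable {L : Type*} [Field L] (A : ValuationSubring L)

/-- A coordinate series: nonzero order, also after reduction, and `u(x') · j = v(x')` with
`ū ≠ 0`. -/
structure IsCoord (x' : LaurentSeries A) : Prop where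
  order_ne : x'.order ≠ 0
  red_order_ne : (coeffMap (IsLocalRing.residue A) x').order ≠ 0
  rel : ∃ u v : A[X], u.map (IsLocalRing.residue A) ≠ 0 ∧ evHom x' u * jqModC A = evHom x' v

theorem isCoord_j : IsCoord A (jqModC A) where
  order_ne := Fermat.Agent.S28.H806.jqModC_order_ne_zero A
  red_order_ne := by
    rw [coeffMap_jqModC]
    exact Fermat.Agent.S28.H806.jqModC_order_ne_zero _
  rel := ⟨1, X, by rw [Polynomial.map_one]; exact one_ne_zero, by rw [map_one, one_mul, evHom_X]⟩

theorem order_ne_zero_of_mul_jqModC_eq_one {R : Type*} [CommRing R] [IsDomain R]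
    {x : LaurentSeries R} (h : x * jqModC R = 1) : x.order ≠ 0 := by
  have hx0 : x ≠ 0 := by
    rintro rfl
    rw [zero_mul] at h
    exact zero_ne_one h
  have hj0 : jqModC R ≠ 0 := by
    intro h0
    rw [h0, mul_zero] at h
    exact zero_ne_one h
  have h1 := HahnSeries.order_mul hx0 hj0
  rw [h, HahnSeries.order_one] at h1
  have h2 := Fermat.Agent.S28.H806.jqModC_order_neg R
  omega

theorem isCoord_of_mul_eq_one {x' : LaurentSeries A} (h : x' * jqModC A = 1) : IsCoord A x' where
  order_ne := order_ne_zero_of_mul_jqModC_eq_one h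
  red_order_ne := by
    apply order_ne_zero_of_mul_jqModC_eq_one
    have := congrArg (coeffMap (IsLocalRing.residue A)) h
    rwa [map_mul, map_one, coeffMap_jqModC] at this
  rel := ⟨X, 1, by
    intro h0
    have := congrArg (fun p => Polynomial.coeff p 1) h0
    simp at this, by rw [evHom_X, map_one, h]⟩

theorem residue_eq_zero_of_not_isUnit (a : A) (ha : ¬ IsUnit a) : IsLocalRing.residue A a = 0 :=
  (IsLocalRing.residue_eq_zero_iff a).mpr ((IsLocalRing.mem_maximalIdeal a).mpr ha)

/-- integrality over `A[x']` of a series and of its image in `L((q))` -/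
theorem isIntegralElem_coeffMap_iff (x' y : LaurentSeries A) :
    (phi A x').IsIntegralElem (coeffMap A.subtype y) ↔ (evHom x').IsIntegralElem y := by
  constructor
  · rintro ⟨p, hp, h⟩
    refine ⟨p, hp, incl_injective A ?_⟩
    rw [map_zero, Polynomial.hom_eval₂]
    exact h
  · rintro ⟨p, hp, h⟩
    refine ⟨p, hp, ?_⟩
    have := congrArg (coeffMap A.subtype) h
    rw [map_zero, Polynomial.hom_eval₂] at this
    exact this

end QepJ

section Main

variable (N : ℕ) [NeZero N] (A : ValuationSubring (AlgebraicClosure ℚ))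

/-- `y ∈ A((q))` is a modular function of level `N`, integral over `A[x']`. -/
def IsChartElt (x' y : LaurentSeries A) : Prop :=
  coeffMap A.subtype y ∈ modularFunctionFieldBar N ∧ (evHom x').IsIntegralElem y

variable {N A} {ℓ : ℕ}

/-- **G3 / saturation.** -/
theorem chart_sat (hℓ : ℓ.Prime) (hℓN : ¬ ℓ ∣ N) (hA : A.LiesOverPrime ℓ)
    {x' : LaurentSeries A} (hx' : IsCoord A x') (y : LaurentSeries A)
    (hy : coeffMap A.subtype y ∈ modularFunctionFieldBar N)
    (hint : (psiL A x').IsIntegralElem (coeffMap A.subtype y)) : IsChartElt N A x' y := by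
  obtain ⟨u, v, hu, huv⟩ := hx'.rel
  refine ⟨hy, (isIntegralElem_coeffMap_iff A x' y).mp ?_⟩
  refine isIntegralElem_of_field A (IsLocalRing.residue A) N
    (Fermat.Agent.S37.H98.coreData_residueField N ℓ hℓ hℓN A hA)
    (residue_eq_zero_of_not_isUnit A) x' hx'.order_ne hx'.red_order_ne u v hu huv hy ?_ hint
  refine ⟨y, 1, ?_, ?_⟩
  · rw [map_one]; exact one_ne_zero
  · rw [map_one, mul_one]

/-- **INT-Q**: the integral closure of `A[x']` in `F̄_N` consists of `A`-integral `q`-series. -/
theorem chart_intQ (hℓ : ℓ.Prime) (hℓN : ¬ ℓ ∣ N) (hA : A.LiesOverPrime ℓ)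
    (x' : LaurentSeries A) {b : LaurentSeries (AlgebraicClosure ℚ)}
    (hb : b ∈ modularFunctionFieldBar N) (hint : (phi A x').IsIntegralElem b) :
    ∃ y : LaurentSeries A, coeffMap A.subtype y = b ∧ IsChartElt N A x' y := by
  haveI : Algebra.IsAlgebraic ℚ (AlgebraicClosure ℚ) := AlgebraicClosure.isAlgebraic ℚ
  obtain ⟨y, hy⟩ := exists_series_of_isIntegralElem A N (IsLocalRing.residue A)
    (Fermat.Agent.S37.H98.coreData_residueField N ℓ hℓ hℓN A hA)
    (archVal_of_liesOverPrime A hℓ hA) x' hb hint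
  refine ⟨y, hy, by rw [hy]; exact hb, (isIntegralElem_coeffMap_iff A x' y).mp ?_⟩
  rw [hy]
  exact hint

/-- **QEP, kernel form**: a chart element with zero reduction is a constant of the maximal ideal
times a chart element with nonzero reduction. -/
theorem chart_ker (hℓ : ℓ.Prime) (hℓN : ¬ ℓ ∣ N) (hA : A.LiesOverPrime ℓ)
    {x' : LaurentSeries A} (hx' : IsCoord A x') {y : LaurentSeries A}
    (hy : IsChartElt N A x' y) (hred : coeffMap (IsLocalRing.residue A) y = 0) :
    ∃ (μ : A) (y' : LaurentSeries A), IsLocalRing.residue A μ = 0 ∧ y = HahnSeries.C μ * y' ∧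
      IsChartElt N A x' y' ∧ (y ≠ 0 → coeffMap (IsLocalRing.residue A) y' ≠ 0) := by
  haveI : Algebra.IsAlgebraic ℚ (AlgebraicClosure ℚ) := AlgebraicClosure.isAlgebraic ℚ
  obtain ⟨u, v, hu, huv⟩ := hx'.rel
  obtain ⟨μ, y', hμ, hyy', hy'mem, hy'int, hy'red⟩ :=
    exists_eq_C_mul_of_red_eq_zero A (IsLocalRing.residue A) N
      (Fermat.Agent.S37.H98.coreData_residueField N ℓ hℓ hℓN A hA)
      (residue_eq_zero_of_not_isUnit A) (archVal_of_liesOverPrime A hℓ hA)
      x' hx'.order_ne hx'.red_order_ne u v hu huv y hy.1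
      ((isIntegralElem_coeffMap_iff A x' y).mpr hy.2) hred
  exact ⟨μ, y', hμ, hyy', ⟨hy'mem, (isIntegralElem_coeffMap_iff A x' y').mp hy'int⟩, hy'red⟩

/-- Reductions of chart elements lie in `F_k` and are integral over `k[x̄']`. -/
theorem chart_red_mem (hℓ : ℓ.Prime) (hℓN : ¬ ℓ ∣ N) (hA : A.LiesOverPrime ℓ)
    {x' y : LaurentSeries A} (hy : IsChartElt N A x' y) :
    coeffMap (IsLocalRing.residue A) y ∈
        modularFunctionFieldFullC (IsLocalRing.ResidueField A) N ∧
      (evHom (coeffMap (IsLocalRing.residue A) x')).IsIntegralElem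
        (coeffMap (IsLocalRing.residue A) y) := by
  refine ⟨red_mem_of_incl_mem A (IsLocalRing.residue A) N
    (Fermat.Agent.S37.H98.coreData_residueField N ℓ hℓ hℓN A hA) hy.1, ?_⟩
  obtain ⟨p, hp, h⟩ := hy.2
  refine ⟨p.map (Polynomial.mapRingHom (IsLocalRing.residue A)), hp.map _, ?_⟩
  have h1 := congrArg (coeffMap (IsLocalRing.residue A)) h
  rw [map_zero, Polynomial.hom_eval₂] at h1
  rw [Polynomial.eval₂_map]
  have hcomp : (evHom (coeffMap (IsLocalRing.residue A) x')).comp
      (Polynomial.mapRingHom (IsLocalRing.residue A)) =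
      (coeffMap (IsLocalRing.residue A)).comp (evHom x') := by
    refine RingHom.ext fun P => ?_
    rw [RingHom.comp_apply, RingHom.comp_apply, coeffMap_evHom]
    rfl
  rw [hcomp]
  exact h1

end Main

end Fermat.Agent.S37.H700
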