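import Mathlib
import Fermat.Prelude.Def_ModularCurve_LaurentCoeff

/-!
# S37 / R-a, helper700: `A((q))` is completely integrally closed in `L((q))`

`A` a valuation subring of a field `L` whose value group is archimedean (`Archimedean A`,
elementwise form: powers of a non-unit become smaller than any nonzero element).

* `exists_coeffMap_eq_of_coeff_mem` : a Laurent series over `L` all of whose coefficients lie in
  `A` is the image of a Laurent series over `A`.
* **`exists_coeffMap_eq_of_forall_pow`** : if `f ∈ L((q))` and `d ∈ A((q))`, `d ≠ 0`, are such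
  that `d · f ^ m ∈ A((q))` for every `m`, then `f ∈ A((q))`.

Proof (lowest-term trick): subtract from `f` its truncation below the first index `n₁` whose
coefficient `c` is not in `A`; the leading coefficient of `d · (f - f₁) ^ m` is `d₀ c ^ m ∈ A`
for all `m`, which contradicts the archimedean property.
-/

set_option autoImplicit false

noncomputable section

namespace Fermat.Agent.S37.H700

open HahnSeries ModularCurve

variable {L : Type*} [Field L] (A : ValuationSubring L)

/-- The value group of `A` is archimedean, elementwise form. -/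
def ArchVal : Prop :=
  ∀ a : L, a ∈ A.nonunits → ∀ d : L, d ≠ 0 → ∃ m : ℕ, A.valuation a ^ m < A.valuation d

theorem exists_coeffMap_eq_of_coeff_mem (x : LaurentSeries L) (h : ∀ n, x.coeff n ∈ A) :
    ∃ y : LaurentSeries A, coeffMap A.subtype y = x := by
  refine ⟨⟨fun n => ⟨x.coeff n, h n⟩, ?_⟩, ?_⟩
  · refine x.isPWO_support.mono ?_
    intro n hn
    simp only [Function.mem_support, ne_eq] at hn ⊢
    intro h0
    apply hn
    exact Subtype.ext h0
  · ext n
    rw [coeffMap_coeff]
    rfl

theorem coeff_mem_of_coeffMap_eq {x : LaurentSeries L} {y : LaurentSeries A}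
    (h : coeffMap A.subtype y = x) (n : ℤ) : x.coeff n ∈ A := by
  rw [← h, coeffMap_coeff]
  exact (y.coeff n).2

theorem mem_range_coeffMap_iff (x : LaurentSeries L) :
    x ∈ (coeffMap A.subtype).range ↔ ∀ n, x.coeff n ∈ A := by
  constructor
  · rintro ⟨y, hy⟩ n
    exact coeff_mem_of_coeffMap_eq A hy n
  · intro h
    obtain ⟨y, hy⟩ := exists_coeffMap_eq_of_coeff_mem A x h
    exact ⟨y, hy⟩

theorem coeffMap_subtype_injective : Function.Injective (coeffMap A.subtype) := by
  intro y z hyz
  ext n
  have h2 := congrArg (fun s => s.coeff n) hyz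
  simp only [coeffMap_coeff] at h2
  exact h2

theorem leadingCoeff_pow' (x : LaurentSeries L) (m : ℕ) :
    (x ^ m).leadingCoeff = x.leadingCoeff ^ m := by
  induction m with
  | zero => simp
  | succ m ih => rw [pow_succ, leadingCoeff_mul, ih, pow_succ]

/-- **`A((q))` is completely integrally closed in `L((q))`** (archimedean value group). -/
theorem exists_coeffMap_eq_of_forall_pow (harch : ArchVal A)
    (f : LaurentSeries L) (d : LaurentSeries A) (hd : d ≠ 0)
    (h : ∀ m : ℕ, coeffMap A.subtype d * f ^ m ∈ (coeffMap A.subtype).range) :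
    ∃ y : LaurentSeries A, coeffMap A.subtype y = f := by
  classical
  by_contra hne
  have hS : {n : ℤ | f.coeff n ∉ A}.Nonempty := by
    by_contra hempty
    apply hne
    apply exists_coeffMap_eq_of_coeff_mem
    intro n
    by_contra hn
    exact hempty ⟨n, hn⟩
  have hSsub : {n : ℤ | f.coeff n ∉ A} ⊆ f.support := by
    intro n hn
    rw [HahnSeries.mem_support]
    intro h0
    apply hn
    rw [h0]
    exact A.zero_mem
  have hWF : {n : ℤ | f.coeff n ∉ A}.IsWF := f.isWF_support.mono hSsub
  set n₁ := hWF.min hS with hn₁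
  have hn₁mem : f.coeff n₁ ∉ A := hWF.min_mem hS
  have hn₁min : ∀ n, n < n₁ → f.coeff n ∈ A := by
    intro n hn
    by_contra hnA
    exact hWF.not_lt_min hS hnA hn
  set f₁ := truncLT n₁ f with hf₁
  have hf₁mem : f₁ ∈ (coeffMap A.subtype).range := by
    rw [mem_range_coeffMap_iff]
    intro n
    rw [hf₁, HahnSeries.coeff_truncLT]
    split_ifs with hlt
    · exact hn₁min n hlt
    · exact A.zero_mem
  set f₂ := f - f₁ with hf₂
  have hf₂coeff : ∀ n, f₂.coeff n = if n < n₁ then 0 else f.coeff n := by
    intro n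
    rw [hf₂, HahnSeries.coeff_sub, hf₁, HahnSeries.coeff_truncLT]
    split_ifs <;> simp
  set c := f.coeff n₁ with hc
  have hc0 : c ≠ 0 := by
    intro h0
    apply hn₁mem
    rw [h0]
    exact A.zero_mem
  have hf₂n₁ : f₂.coeff n₁ = c := by
    rw [hf₂coeff, if_neg (lt_irrefl _)]
  have hf₂0 : f₂ ≠ 0 := ne_zero_of_coeff_ne_zero (by rw [hf₂n₁]; exact hc0)
  have hord : f₂.order = n₁ := by
    apply le_antisymm
    · exact order_le_of_coeff_ne_zero (by rw [hf₂n₁]; exact hc0)
    · rw [le_order_iff_forall hf₂0]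
      intro j hj
      rw [hf₂coeff, if_pos hj]
  have hlead : f₂.leadingCoeff = c := by
    rw [leadingCoeff_eq, hord, hf₂n₁]
  -- `d * f₂ ^ m` has coefficients in `A`
  have hmem : ∀ m : ℕ, coeffMap A.subtype d * f₂ ^ m ∈ (coeffMap A.subtype).range := by
    intro m
    have hexp : f₂ ^ m = ∑ i ∈ Finset.range (m + 1), f ^ i * (-f₁) ^ (m - i) * (m.choose i) := by
      rw [hf₂, sub_eq_add_neg, add_pow]
    rw [hexp, Finset.mul_sum]
    refine Subring.sum_mem _ fun i _ => ?_
    rw [← mul_assoc, ← mul_assoc]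
    refine Subring.mul_mem _ (Subring.mul_mem _ (h i) ?_) ?_
    · exact Subring.pow_mem _ (Subring.neg_mem _ hf₁mem) _
    · exact natCast_mem _ _
  set d' := coeffMap A.subtype d with hd'
  have hd'0 : d' ≠ 0 := by
    intro h0
    apply hd
    apply coeffMap_subtype_injective A
    rw [← hd', h0, map_zero]
  set d₀ := d'.leadingCoeff with hd₀
  have hd₀0 : d₀ ≠ 0 := leadingCoeff_ne_zero.mpr hd'0
  have hd₀c : ∀ m : ℕ, d₀ * c ^ m ∈ A := by
    intro m
    have h1 := (mem_range_coeffMap_iff A _).mp (hmem m) (d' * f₂ ^ m).order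
    rw [← leadingCoeff_eq, leadingCoeff_mul, leadingCoeff_pow', hlead] at h1
    exact h1
  -- contradiction with the archimedean property
  have hcv : 1 < A.valuation c := by
    by_contra hle
    apply hn₁mem
    rw [← A.valuation_le_one_iff]
    exact not_lt.mp hle
  have hcinv : c⁻¹ ∈ A.nonunits := by
    rw [ValuationSubring.mem_nonunits_iff, map_inv₀]
    exact inv_lt_one_of_one_lt₀ hcv
  obtain ⟨m, hm⟩ := harch c⁻¹ hcinv d₀ hd₀0
  have h2 := (A.valuation_le_one_iff _).mpr (hd₀c m)
  rw [map_mul, map_pow] at h2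
  rw [map_inv₀, inv_pow] at hm
  have hcm0 : A.valuation c ^ m ≠ 0 :=
    pow_ne_zero _ ((Valuation.ne_zero_iff _).mpr hc0)
  have h3 : (A.valuation c ^ m)⁻¹ * A.valuation c ^ m < A.valuation d₀ * A.valuation c ^ m :=
    mul_lt_mul_of_pos_right hm (zero_lt_iff.mpr hcm0)
  rw [inv_mul_cancel₀ hcm0] at h3
  exact absurd h2 (not_le.mpr h3)

end Fermat.Agent.S37.H700
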