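import Fermat.Agent.S37.H700.GaussNorm

/-!
# S37 / R-a, helper700: descent of integrality from `L[X]` to `A[X]` (abstract form of QEP / G3)

`A` is a valuation subring of a field `L` (no discreteness, no rank hypothesis), `Ω` a field and
`ψ : L[X] →+* Ω` an injective ring homomorphism (think `Ω = L((q))`, `ψ P = P(j)`).

* `exists_lift_of_isIntegralElem` : `A[X]` is integrally closed in `L[X]`.
* `exists_lift_of_mul_pow` : `c ∈ L[X]`, `c · s^e ∈ A[X]` with `s ∈ A[X]`, `s̄ ≠ 0` ⟹ `c ∈ A[X]`
  (Gauss lemma).
* **`isIntegralElem_descent`** : if `b ∈ Ω` is integral over `L[X]` and `ψ(s) · b` is integral over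
  `A[X]` for some `s ∈ A[X]` with nonzero reduction, then `b` is integral over `A[X]`.

Proof of the last statement: the minimal polynomial of `ψ(s) b` over `L(X)` is the `scaleRoots`
of the one of `b`; its coefficients are integral over `A[X]`, and lie in `L[X]` because `L[X]`
is integrally closed; conclude with the two lemmas above.
-/

set_option autoImplicit false
set_option linter.style.haveILetI false

noncomputable section

namespace Fermat.Agent.S37.H700

open Polynomial

section Descent

variable {L : Type*} [Field L] (A : ValuationSubring L)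

theorem mapRingHom_subtype_injective :
    Function.Injective (Polynomial.mapRingHom A.subtype) :=
  Polynomial.map_injective _ A.subtype_injective

/-- A nonzero polynomial over `L` can be scaled to a polynomial over `A` with nonzero reduction. -/
theorem exists_scaled (g : L[X]) (hg : g ≠ 0) :
    ∃ (c : L) (g' : A[X]), c ≠ 0 ∧ g'.map A.subtype = Polynomial.C c * g ∧
      g'.map (IsLocalRing.residue A) ≠ 0 := by
  obtain ⟨c, hc, P', hP', i, hi⟩ := normalize_family A (fun _ : Unit => g) ⟨(), hg⟩
  exact ⟨c, P' (), hc, hP' (), by cases i; exact hi⟩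

/-- if `c⁻¹ ∉ A` then `c` is an element of `A` with zero residue -/
theorem residue_eq_zero_of_inv_not_mem {c : L} (hc : c⁻¹ ∉ A) :
    ∃ h : c ∈ A, IsLocalRing.residue A ⟨c, h⟩ = 0 := by
  have hcA : c ∈ A := (A.mem_or_inv_mem c).resolve_right hc
  refine ⟨hcA, ?_⟩
  rw [IsLocalRing.residue_eq_zero_iff]
  intro hu
  apply hc
  obtain ⟨d, hd⟩ := isUnit_iff_exists_inv.mp hu
  have hd' : c * (d : L) = 1 := by
    have := congrArg (fun x : A => (x : L)) hd
    simpa using this
  have : c⁻¹ = (d : L) := by
    rw [inv_eq_of_eq_one' hd']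
  rw [this]
  exact d.2
where
  inv_eq_of_eq_one' {a b : L} (h : a * b = 1) : a⁻¹ = b := inv_eq_of_mul_eq_one_right h

/-- a multiple `C c⁻¹ * g'` with `c⁻¹ ∈ A` of a polynomial over `A` is a polynomial over `A` -/
theorem exists_lift_of_scaled {c : L} (hc : c⁻¹ ∈ A) (hc0 : c ≠ 0) (g : L[X]) (g' : A[X])
    (h : g'.map A.subtype = Polynomial.C c * g) : ∃ g₀ : A[X], g₀.map A.subtype = g := by
  apply exists_lift_of_coeff_mem
  intro m
  have h1 := congrArg (fun p => Polynomial.coeff p m) h
  simp only [Polynomial.coeff_map, Polynomial.coeff_C_mul] at h1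
  have h2 : g.coeff m = c⁻¹ * (A.subtype (g'.coeff m)) := by
    rw [h1, ← mul_assoc, inv_mul_cancel₀ hc0, one_mul]
  rw [h2]
  exact A.mul_mem _ _ hc (g'.coeff m).2

/-- **`A[X]` is integrally closed in `L[X]`.** -/
theorem exists_lift_of_isIntegralElem (g : L[X])
    (hg : (Polynomial.mapRingHom A.subtype).IsIntegralElem g) :
    ∃ g' : A[X], g'.map A.subtype = g := by
  by_cases hg0 : g = 0
  · exact ⟨0, by rw [hg0, Polynomial.map_zero]⟩
  obtain ⟨c, g', hc0, hg', hred⟩ := exists_scaled A g hg0
  by_cases hc : c⁻¹ ∈ A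
  · exact exists_lift_of_scaled A hc hc0 g g' hg'
  exfalso
  obtain ⟨hcA, hcres⟩ := residue_eq_zero_of_inv_not_mem A hc
  obtain ⟨p, hp, hpg⟩ := hg
  set cA : A := ⟨c, hcA⟩ with hcAdef
  set q : A[X][X] := p.scaleRoots (Polynomial.C cA) with hq
  have h1 : Polynomial.eval₂ (Polynomial.mapRingHom A.subtype)
      (Polynomial.mapRingHom A.subtype (Polynomial.C cA) * g) q = 0 := by
    rw [hq, Polynomial.scaleRoots_eval₂_mul, hpg, mul_zero]
  have h2 : Polynomial.mapRingHom A.subtype (Polynomial.C cA) * g =
      Polynomial.mapRingHom A.subtype g' := by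
    rw [Polynomial.coe_mapRingHom, Polynomial.map_C, hg']
    rfl
  rw [h2, Polynomial.eval₂_at_apply] at h1
  have h3 : q.eval g' = 0 :=
    mapRingHom_subtype_injective A (by rw [h1, map_zero])
  -- reduce modulo the maximal ideal
  have h4 : (q.map (Polynomial.mapRingHom (IsLocalRing.residue A))).eval
      (g'.map (IsLocalRing.residue A)) = 0 := by
    have := congrArg (Polynomial.mapRingHom (IsLocalRing.residue A)) h3
    rw [map_zero, ← Polynomial.eval₂_at_apply] at this
    rw [Polynomial.eval_map]
    exact this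
  have h5 : q.map (Polynomial.mapRingHom (IsLocalRing.residue A)) =
      Polynomial.X ^ p.natDegree := by
    ext1 i
    rw [Polynomial.coeff_map, hq, Polynomial.coeff_scaleRoots, map_mul, map_pow,
      Polynomial.coe_mapRingHom, Polynomial.map_C, hcres, Polynomial.C_0, Polynomial.coeff_X_pow]
    by_cases hi : i = p.natDegree
    · rw [if_pos hi, hi, Nat.sub_self, pow_zero, mul_one, Polynomial.coeff_natDegree,
        hp.leadingCoeff, Polynomial.map_one]
    · rw [if_neg hi]
      rcases Nat.lt_or_gt_of_ne hi with h | h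
      · rw [zero_pow (Nat.sub_ne_zero_of_lt h), mul_zero]
      · rw [Polynomial.coeff_eq_zero_of_natDegree_lt h, Polynomial.map_zero, zero_mul]
  rw [h5, Polynomial.eval_pow, Polynomial.eval_X] at h4
  exact hred (eq_zero_of_pow_eq_zero h4)

/-- **Gauss lemma**: if `c · s^e` has coefficients in `A`, where `s ∈ A[X]` has nonzero reduction,
then `c` has coefficients in `A`. -/
theorem exists_lift_of_mul_pow (c : L[X]) (s t : A[X])
    (hs : s.map (IsLocalRing.residue A) ≠ 0) (e : ℕ)
    (h : c * (s.map A.subtype) ^ e = t.map A.subtype) :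
    ∃ c' : A[X], c'.map A.subtype = c := by
  by_cases hc0 : c = 0
  · exact ⟨0, by rw [hc0, Polynomial.map_zero]⟩
  obtain ⟨a, c', ha0, hc', hred⟩ := exists_scaled A c hc0
  by_cases ha : a⁻¹ ∈ A
  · exact exists_lift_of_scaled A ha ha0 c c' hc'
  exfalso
  obtain ⟨haA, hares⟩ := residue_eq_zero_of_inv_not_mem A ha
  have h1 : (c' * s ^ e).map A.subtype = (Polynomial.C (⟨a, haA⟩ : A) * t).map A.subtype := by
    rw [Polynomial.map_mul, Polynomial.map_pow, hc', Polynomial.map_mul, Polynomial.map_C,
      mul_assoc, h]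
    rfl
  have h2 : c' * s ^ e = Polynomial.C (⟨a, haA⟩ : A) * t :=
    Polynomial.map_injective _ A.subtype_injective h1
  have h3 := congrArg (Polynomial.map (IsLocalRing.residue A)) h2
  rw [Polynomial.map_mul, Polynomial.map_pow, Polynomial.map_mul, Polynomial.map_C, hares,
    Polynomial.C_0, zero_mul] at h3
  rcases mul_eq_zero.mp h3 with h | h
  · exact hred h
  · exact hs (eq_zero_of_pow_eq_zero h)

/-- **Descent of integrality.**  `ψ : L[X] → Ω` injective, `Ω` a field.  If `b ∈ Ω` is integral
over `L[X]` and `ψ(s) · b` is integral over `A[X]` for some `s ∈ A[X]` with nonzero reduction, then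
`b` is integral over `A[X]`. -/
theorem isIntegralElem_descent {Ω : Type*} [Field Ω] (ψ : L[X] →+* Ω)
    (hψ : Function.Injective ψ) (s : A[X]) (hs : s.map (IsLocalRing.residue A) ≠ 0) (b : Ω)
    (h1 : (ψ.comp (Polynomial.mapRingHom A.subtype)).IsIntegralElem (ψ (s.map A.subtype) * b))
    (h2 : ψ.IsIntegralElem b) :
    (ψ.comp (Polynomial.mapRingHom A.subtype)).IsIntegralElem b := by
  classical
  -- the algebra structures
  letI algLΩ : Algebra L[X] Ω := ψ.toAlgebra
  let φ : RatFunc L →+* Ω := IsFractionRing.lift (A := L[X]) (K := RatFunc L) (g := ψ) hψ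
  have hφ : ∀ x : L[X], φ (algebraMap L[X] (RatFunc L) x) = ψ x :=
    fun x => IsFractionRing.lift_algebraMap hψ x
  letI algKΩ : Algebra (RatFunc L) Ω := φ.toAlgebra
  haveI towLKΩ : IsScalarTower L[X] (RatFunc L) Ω :=
    IsScalarTower.of_algebraMap_eq fun x => (hφ x).symm
  letI algAL : Algebra A[X] L[X] := (Polynomial.mapRingHom A.subtype).toAlgebra
  letI algAΩ : Algebra A[X] Ω := (ψ.comp (Polynomial.mapRingHom A.subtype)).toAlgebra
  haveI towALK : IsScalarTower A[X] L[X] (RatFunc L) := inferInstance
  haveI towALΩ : IsScalarTower A[X] L[X] Ω :=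
    IsScalarTower.of_algebraMap_eq fun _ => rfl
  haveI towAKΩ : IsScalarTower A[X] (RatFunc L) Ω :=
    IsScalarTower.of_algebraMap_eq fun x => by
      rw [IsScalarTower.algebraMap_apply A[X] L[X] (RatFunc L)]
      exact (hφ _).symm
  have hb : IsIntegral L[X] b := h2
  have hs0 : s.map A.subtype ≠ 0 := by
    intro h
    apply hs
    have : s = 0 := Polynomial.map_injective _ A.subtype_injective (by rw [h, Polynomial.map_zero])
    rw [this, Polynomial.map_zero]
  set sK : RatFunc L := algebraMap L[X] (RatFunc L) (s.map A.subtype) with hsK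
  have hsK0 : sK ≠ 0 := by
    rw [hsK]
    exact (map_ne_zero_iff _ (IsFractionRing.injective L[X] (RatFunc L))).mpr hs0
  set z : Ω := ψ (s.map A.subtype) * b with hz
  have hzK : z = algebraMap (RatFunc L) Ω sK * b := by
    rw [hz, hsK]
    congr 1
    exact (hφ _).symm
  have hzint : IsIntegral A[X] z := h1
  -- minimal polynomials over `L(X)`
  have hbK : IsIntegral (RatFunc L) b := hb.tower_top
  have hzK' : IsIntegral (RatFunc L) z := hzint.tower_top
  have hμb : minpoly (RatFunc L) b = (minpoly L[X] b).map (algebraMap L[X] (RatFunc L)) :=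
    minpoly.isIntegrallyClosed_eq_field_fractions' (RatFunc L) hb
  set μb := minpoly (RatFunc L) b with hμbdef
  set μz := minpoly (RatFunc L) z with hμzdef
  set G := μb.scaleRoots sK with hG
  have hGmonic : G.Monic := (Polynomial.monic_scaleRoots_iff sK).mpr (minpoly.monic hbK)
  have hGz : Polynomial.aeval z G = 0 := by
    rw [hzK]
    exact Polynomial.scaleRoots_aeval_eq_zero (minpoly.aeval (RatFunc L) b)
  have hdvd : μz ∣ G := minpoly.dvd (RatFunc L) z hGz
  have hdeg : G.natDegree ≤ μz.natDegree := by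
    rw [hG, Polynomial.natDegree_scaleRoots]
    set H := μz.scaleRoots sK⁻¹ with hH
    have hHmonic : H.Monic := (Polynomial.monic_scaleRoots_iff sK⁻¹).mpr (minpoly.monic hzK')
    have hbz : b = algebraMap (RatFunc L) Ω sK⁻¹ * z := by
      rw [hzK, ← mul_assoc, ← map_mul, inv_mul_cancel₀ hsK0, map_one, one_mul]
    have hHb : Polynomial.aeval b H = 0 := by
      rw [hbz]
      exact Polynomial.scaleRoots_aeval_eq_zero (minpoly.aeval (RatFunc L) z)
    have h3 : μb ∣ H := minpoly.dvd (RatFunc L) b hHb
    have h4 := Polynomial.natDegree_le_of_dvd h3 hHmonic.ne_zero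
    rwa [hH, Polynomial.natDegree_scaleRoots] at h4
  have hGμz : G = μz :=
    Polynomial.eq_of_monic_of_dvd_of_natDegree_le (minpoly.monic hzK') hGmonic hdvd hdeg
  -- the coefficients of `μz` are integral over `A[X]`
  obtain ⟨f, hfmonic, hfz⟩ := hzint
  have hfz' : Polynomial.aeval z (f.map (algebraMap A[X] (RatFunc L))) = 0 := by
    rw [Polynomial.aeval_map_algebraMap]
    exact hfz
  have hlift := integralClosure.mem_lifts_of_monic_of_dvd_map (RatFunc L) hfmonic
    (minpoly.monic hzK') (minpoly.dvd (RatFunc L) z hfz')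
  rw [Polynomial.lifts_iff_coeff_lifts] at hlift
  -- the coefficients of the minimal polynomial of `b` over `L[X]` lie in `A[X]`
  have hcoeff : ∀ i, ∃ c' : A[X], c'.map A.subtype = (minpoly L[X] b).coeff i := by
    intro i
    obtain ⟨w, hw⟩ := hlift i
    have hint : IsIntegral A[X] (μz.coeff i) := by
      rw [← hw]
      exact w.2
    have hform : μz.coeff i = algebraMap L[X] (RatFunc L)
        ((minpoly L[X] b).coeff i * (s.map A.subtype) ^ (μb.natDegree - i)) := by
      rw [← hGμz, hG, Polynomial.coeff_scaleRoots, hμb, Polynomial.coeff_map, map_mul, map_pow]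
    rw [hform] at hint
    have hint' : IsIntegral A[X]
        ((minpoly L[X] b).coeff i * (s.map A.subtype) ^ (μb.natDegree - i)) :=
      (isIntegral_algebraMap_iff (IsFractionRing.injective L[X] (RatFunc L))).mp hint
    obtain ⟨t, ht⟩ := exists_lift_of_isIntegralElem A _ hint'
    exact exists_lift_of_mul_pow A _ s t hs _ ht.symm
  have hmem : minpoly L[X] b ∈ Polynomial.lifts (Polynomial.mapRingHom A.subtype) := by
    rw [Polynomial.lifts_iff_coeff_lifts]
    intro i
    obtain ⟨c', hc'⟩ := hcoeff i
    exact ⟨c', hc'⟩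
  obtain ⟨m', hm', -, hm'monic⟩ :=
    Polynomial.lifts_and_natDegree_eq_and_monic hmem (minpoly.monic hb)
  refine ⟨m', hm'monic, ?_⟩
  rw [← Polynomial.eval₂_map, hm']
  exact minpoly.aeval L[X] b

end Descent

end Fermat.Agent.S37.H700
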