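import Fermat.Agent.S37.H700.QepJ
import Fermat.Agent.S37.H868.TwoChartsX0

/-!
# S37 / node_rim, helper700: the field `ker` of `H868.ChartInputs` / `H518.Chart` for `X₀(N)`

`ker_chartOf` : for every coordinate `t ∈ IntFun A (residue A) N` (`IsCoord`), the chart
`H868.chartOf t` (elements of `IntFun` integral over `A[t]`) satisfies the `q`-expansion principle
in kernel form:  `b ∈ chartOf t`, `ρ b = 0`  ⟹  `b = μ • b'`, `residue μ = 0`, `b' ∈ chartOf t`.

`ker_B0`, `ker_B1` : the instances for the two `j`-charts `B0` (`t = j`) and `B1` (`t = 1/j`),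
in the EXACT type of the field `ker` of `H868.ChartInputs`.  UNCONDITIONAL (`ℓ ∤ N` prime,
`A.LiesOverPrime ℓ`).  Also `sat_chartOf` (saturation / G3) and `intQ_chartOf` (INT-Q) in the
`IntFun` language.
-/

set_option autoImplicit false
set_option linter.unusedSectionVars false

noncomputable section

namespace Fermat.Agent.S37.H700

open ModularCurve Polynomial Fermat.Agent.S18.H36 Fermat.Agent.S37.H518 Fermat.Agent.S37.H868

variable {N : ℕ} [NeZero N] {A : ValuationSubring (AlgebraicClosure ℚ)} {ℓ : ℕ}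

theorem mem_chartOf_iff_isChartElt {t y : IntFun A (IsLocalRing.residue A) N} :
    y ∈ chartOf (A := A) t ↔ IsChartElt N A (t : LaurentSeries A) (y : LaurentSeries A) := by
  rw [mem_chartOf_iff_series]
  exact ⟨fun h => ⟨y.2.1, h⟩, fun h => h.2⟩

/-- a chart element of level `N` as an element of `IntFun` -/
theorem isChartElt_mem_intFun (hℓ : ℓ.Prime) (hℓN : ¬ ℓ ∣ N) (hA : A.LiesOverPrime ℓ)
    {x' y : LaurentSeries A} (hy : IsChartElt N A x' y) :
    y ∈ IntFun A (IsLocalRing.residue A) N :=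
  ⟨hy.1, (chart_red_mem hℓ hℓN hA hy).1⟩

/-- **`ker`** for the chart of any coordinate. -/
theorem ker_chartOf (hℓ : ℓ.Prime) (hℓN : ¬ ℓ ∣ N) (hA : A.LiesOverPrime ℓ)
    (t : IntFun A (IsLocalRing.residue A) N) (ht : IsCoord A (t : LaurentSeries A)) :
    ∀ b ∈ chartOf (A := A) t, rhoF A (IsLocalRing.residue A) N b = 0 →
      ∃ μ : A, IsLocalRing.residue A μ = 0 ∧ ∃ b' ∈ chartOf (A := A) t, b = μ • b' := by
  intro b hb hred
  have hred' : coeffMap (IsLocalRing.residue A) (b : LaurentSeries A) = 0 := by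
    have := congrArg Subtype.val hred
    rwa [coe_rhoF] at this
  obtain ⟨μ, y', hμ, hyy', hy', -⟩ :=
    chart_ker hℓ hℓN hA ht (mem_chartOf_iff_isChartElt.mp hb) hred'
  refine ⟨μ, hμ, ⟨y', isChartElt_mem_intFun hℓ hℓN hA hy'⟩,
    mem_chartOf_iff_isChartElt.mpr hy', ?_⟩
  apply Subtype.ext
  rw [hyy', Algebra.smul_def]
  rfl

/-- **`ker`** of `H868.ChartInputs` for the finite chart `B0`. -/
theorem ker_B0 (hℓ : ℓ.Prime) (hℓN : ¬ ℓ ∣ N) (hA : A.LiesOverPrime ℓ) :
    ∀ b ∈ B0 A (IsLocalRing.residue A) N, rhoF A (IsLocalRing.residue A) N b = 0 →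
      ∃ μ : A, IsLocalRing.residue A μ = 0 ∧ ∃ b' ∈ B0 A (IsLocalRing.residue A) N, b = μ • b' :=
  ker_chartOf hℓ hℓN hA (jI A (IsLocalRing.residue A) N) (isCoord_j A)

/-- **`ker`** of `H868.ChartInputs` for the chart at infinity `B1`. -/
theorem ker_B1 (hℓ : ℓ.Prime) (hℓN : ¬ ℓ ∣ N) (hA : A.LiesOverPrime ℓ) :
    ∀ b ∈ B1 A (IsLocalRing.residue A) N, rhoF A (IsLocalRing.residue A) N b = 0 →
      ∃ μ : A, IsLocalRing.residue A μ = 0 ∧ ∃ b' ∈ B1 A (IsLocalRing.residue A) N, b = μ • b' :=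
  ker_chartOf hℓ hℓN hA (jInvI A (IsLocalRing.residue A) N)
    (isCoord_of_mul_eq_one A (jInvS_mul_jqModC A))

/-- **Saturation (G3)** in the `IntFun` language: an element of `IntFun` whose image in `F̄_N` is
integral over `ℚ̄[t]` lies in the chart of `t`. -/
theorem sat_chartOf (hℓ : ℓ.Prime) (hℓN : ¬ ℓ ∣ N) (hA : A.LiesOverPrime ℓ)
    (t : IntFun A (IsLocalRing.residue A) N) (ht : IsCoord A (t : LaurentSeries A))
    (y : IntFun A (IsLocalRing.residue A) N)
    (hint : (psiL A (t : LaurentSeries A)).IsIntegralElem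
      (coeffMap A.subtype (y : LaurentSeries A))) : y ∈ chartOf (A := A) t :=
  mem_chartOf_iff_isChartElt.mpr (chart_sat hℓ hℓN hA ht _ y.2.1 hint)

/-- **INT-Q** in the `IntFun` language: every element of `F̄_N` integral over `A[t]` is the image
of an element of the chart of `t`. -/
theorem intQ_chartOf (hℓ : ℓ.Prime) (hℓN : ¬ ℓ ∣ N) (hA : A.LiesOverPrime ℓ)
    (t : IntFun A (IsLocalRing.residue A) N)
    (b : laurentBaseChange (AlgebraicClosure ℚ) (modularFunctionFieldFull N))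
    (hint : (phi A (t : LaurentSeries A)).IsIntegralElem (b : LaurentSeries (AlgebraicClosure ℚ))) :
    ∃ y ∈ chartOf (A := A) t, iotaF A (IsLocalRing.residue A) N y = b := by
  obtain ⟨y, hy, hyc⟩ := chart_intQ hℓ hℓN hA (t : LaurentSeries A) b.2 hint
  refine ⟨⟨y, isChartElt_mem_intFun hℓ hℓN hA hyc⟩, mem_chartOf_iff_isChartElt.mpr hyc, ?_⟩
  apply Subtype.ext
  rw [coe_iotaF]
  exact hy

end Fermat.Agent.S37.H700
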