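import Fermat.Agent.S18.H36.QEP
import Fermat.Agent.S37.H700.Descent
import Fermat.Agent.S37.H700.Cic

/-!
# S37 / R-a, helper700: the `q`-expansion principle over a NON-DISCRETE valuation ring

Setting of `S18/H36/QEP.lean` (helper36) and `S18/H516` (helper516): `A` a valuation subring of a
field `L ⊇ ℚ`, `π : A →+* k` with `S28.CoreData N k`, `F_L = laurentBaseChange L (F_N)`,
`x'` a coordinate series (`u(x') · j = v(x')`, `ū ≠ 0`; covers `j, 1/j, t₂, 1/t₂, t₃, 1/t₃`),
`phi A x' : A[X] → L((q))`, `P ↦ P(x')`.

Here NO generator of the kernel of `π` is assumed (`A ⊆ ℚ̄` has value group `ℚ`), only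
`hπ : π` kills the non-units of `A`.

* `exists_denominator_coord` : `b ∈ F_L` in the Gauss ring ⟹ `S(x') b` integral over `A[x']` for
  some `S ∈ A[X]` with `S̄ ≠ 0`.
* **`isIntegralElem_of_field`** (G3 / saturation (H4')): `b ∈ F_L` in the Gauss ring and integral
  over `L[x']` ⟹ `b` integral over `A[x']`.
* **`exists_series_of_isIntegralElem`** (INT-Q): `b ∈ F_L` integral over `A[x']` ⟹ `b ∈ A((q))`
  (needs `ArchVal A`).
* **`exists_eq_C_mul_of_red_eq_zero`** (KER): `y ∈ A((q)) ∩ F_L` integral over `A[x']` with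
  `ȳ = 0` ⟹ `y = μ y'`, `π μ = 0`, `y' ∈ A((q)) ∩ F_L` integral over `A[x']` and `ȳ' ≠ 0`.
-/

set_option autoImplicit false
set_option linter.unusedSectionVars false
set_option linter.style.haveILetI false

noncomputable section

namespace Fermat.Agent.S37.H700

open ModularCurve IntermediateField Polynomial Fermat.Agent.S28 Fermat.Agent.S18.H516
open Fermat.Agent.S18.H36

section Qep

variable {L : Type*} [Field L] [Algebra ℚ L] (A : ValuationSubring L)
variable {k : Type} [Field k] (π : A →+* k) (N : ℕ) [NeZero N]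

/-- `ψ = ` evaluation `L[X] → L((q))` at the image of `x'`. -/
def psiL (x' : LaurentSeries A) : L[X] →+* LaurentSeries L :=
  evHom (coeffMap A.subtype x')

theorem psiL_comp (x' : LaurentSeries A) :
    (psiL A x').comp (Polynomial.mapRingHom A.subtype) = phi A x' := by
  refine RingHom.ext fun P => ?_
  rw [RingHom.comp_apply, psiL, phi_apply, coeffMap_evHom]
  rfl

theorem psiL_map (x' : LaurentSeries A) (P : A[X]) :
    psiL A x' (P.map A.subtype) = phi A x' P := by
  rw [← psiL_comp]
  rfl

theorem psiL_C_mul (x' : LaurentSeries A) (c : L) (P : L[X]) :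
    psiL A x' (Polynomial.C c * P) = HahnSeries.C c * psiL A x' P := by
  rw [map_mul, psiL, evHom_C]

theorem psiL_injective (x' : LaurentSeries A) (hx0 : x'.order ≠ 0) :
    Function.Injective (psiL A x') := by
  rw [injective_iff_map_eq_zero]
  intro P hP
  by_contra hP0
  obtain ⟨c, P', hc0, hP', hred⟩ := exists_scaled A P hP0
  have h1 : phi A x' P' = 0 := by
    rw [← psiL_map, hP', psiL_C_mul, hP, mul_zero]
  have h2 : P' = 0 := phi_injective A x' hx0 (by rw [h1, map_zero])
  apply hred
  rw [h2, Polynomial.map_zero]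

/-- `π` kills the non-units: a polynomial with nonzero `π`-reduction has nonzero residue. -/
theorem map_residue_ne_zero (hπ : ∀ a : A, ¬ IsUnit a → π a = 0) {S : A[X]}
    (hS : S.map π ≠ 0) : S.map (IsLocalRing.residue A) ≠ 0 := by
  intro h0
  apply hS
  ext i
  rw [Polynomial.coeff_map, Polynomial.coeff_zero]
  apply hπ
  have := congrArg (fun p => Polynomial.coeff p i) h0
  simp only [Polynomial.coeff_map, Polynomial.coeff_zero] at this
  exact (IsLocalRing.residue_eq_zero_iff _).mp this

/-- **Denominators on the chart of `x'`.**  (Extracted from the proof of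
`H36.isIntegralElem_of_coord`; no hypothesis on the kernel of `π`.) -/
theorem exists_denominator_coord (core : CoreData N k)
    (x' : LaurentSeries A) (hx0 : x'.order ≠ 0) (hx : (coeffMap π x').order ≠ 0)
    (u v : A[X]) (hu : u.map π ≠ 0) (huv : evHom x' u * jqModC A = evHom x' v)
    {b : LaurentSeries L} (hb : b ∈ laurentBaseChange L (modularFunctionFieldFull N))
    (hV : InGauss A π b) :
    ∃ S : A[X], S.map π ≠ 0 ∧ (phi A x').IsIntegralElem (phi A x' S * b) := by
  classical
  obtain ⟨s, hs, hz⟩ := Fermat.Agent.S18.H36.exists_denominator A π N core hb hV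
  have hφ'inj : Function.Injective (phi A x') := phi_injective A x' hx0
  have hu0 : u ≠ 0 := fun h => hu (by rw [h, Polynomial.map_zero])
  have hφu : phi A x' u ≠ 0 := fun h => hu0 (hφ'inj (by rw [h, map_zero]))
  have hφuv : phi A x' u * coeffMap A.subtype (jqModC A) = phi A x' v := by
    rw [phi_apply, phi_apply, ← map_mul, huv]
  let g : Localization.Away u →+* LaurentSeries L :=
    IsLocalization.Away.lift (S := Localization.Away u) u (g := phi A x') hφu.isUnit
  have hg : ∀ a : A[X], g (algebraMap A[X] (Localization.Away u) a) = phi A x' a :=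
    fun a => IsLocalization.Away.lift_eq u hφu.isUnit a
  let ψ : A[X] →+* Localization.Away u :=
    Polynomial.eval₂RingHom ((algebraMap A[X] (Localization.Away u)).comp Polynomial.C)
      (algebraMap A[X] (Localization.Away u) v *
        IsLocalization.Away.invSelf (S := Localization.Away u) u)
  have hginv : phi A x' u * g (IsLocalization.Away.invSelf (S := Localization.Away u) u) = 1 := by
    rw [← hg u, ← map_mul, IsLocalization.Away.mul_invSelf, map_one]
  have hcomp : g.comp ψ = phi A (jqModC A) := by
    apply Polynomial.ringHom_ext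
    · intro a
      simp only [ψ, RingHom.comp_apply, Polynomial.coe_eval₂RingHom, eval₂_C]
      rw [hg, phi_apply, phi_apply, evHom_C, evHom_C]
    · simp only [ψ, RingHom.comp_apply, Polynomial.coe_eval₂RingHom, eval₂_X]
      rw [map_mul, hg, phi_apply (x' := jqModC A), evHom_X, ← hφuv, mul_assoc, mul_comm _ (g _),
        ← mul_assoc, hginv, one_mul]
  have hz' : g.IsIntegralElem (phi A (jqModC A) s * b) :=
    RingHom.IsIntegralElem.of_comp (f := ψ) (g := g) (by rw [hcomp]; exact hz)
  letI algK : Algebra A[X] (LaurentSeries L) := (phi A x').toAlgebra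
  letI algRmK : Algebra (Localization.Away u) (LaurentSeries L) := g.toAlgebra
  haveI : IsScalarTower A[X] (Localization.Away u) (LaurentSeries L) :=
    IsScalarTower.of_algebraMap_eq fun a => (hg a).symm
  obtain ⟨⟨m, hm⟩, hmz⟩ := IsIntegral.exists_multiple_integral_of_isLocalization
    (Submonoid.powers u) (Rₘ := Localization.Away u) (phi A (jqModC A) s * b) hz'
  have hmz' : (phi A x').IsIntegralElem (phi A x' m * (phi A (jqModC A) s * b)) := hmz
  obtain ⟨⟨p', ⟨m', hm'⟩⟩, hp'⟩ := IsLocalization.surj (Submonoid.powers u) (ψ s)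
  have hp'' : phi A (jqModC A) s * phi A x' m' = phi A x' p' := by
    have := congrArg g hp'
    rwa [map_mul, hg, hg, ← RingHom.comp_apply, hcomp] at this
  have hS : (phi A x').IsIntegralElem (phi A x' (m * p') * b) := by
    have e : phi A x' (m * p') * b = phi A x' m' * (phi A x' m * (phi A (jqModC A) s * b)) := by
      rw [map_mul, ← hp'']
      ring
    rw [e]
    exact RingHom.IsIntegralElem.mul _ ((phi A x').isIntegralElem_map) hmz'
  have hρS : rho A π x' (m * p') ≠ 0 := by
    rw [map_mul]
    refine mul_ne_zero (rho_pow_ne_zero A π x' hx hu hm) ?_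
    have h1 : evJ s * evHom x' m' = evHom x' p' := by
      apply incl_injective A
      rw [map_mul]
      exact hp''
    have h2 := congrArg (coeffMap π) h1
    rw [map_mul, coeffMap_evJ] at h2
    have h3 : rho A π x' p' = evJ (s.map π) * rho A π x' m' := h2.symm
    rw [h3]
    refine mul_ne_zero (fun h => hs ((evJ_eq_zero_iff k).mp h))
      (rho_pow_ne_zero A π x' hx hu hm')
  exact ⟨m * p', fun h0 => hρS ((rho_eq_zero_iff A π x' hx _).mpr h0), hS⟩

/-- **G3 / saturation**: an element of `F_L` in the Gauss ring which is integral over `L[x']`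
is integral over `A[x']`. -/
theorem isIntegralElem_of_field (core : CoreData N k) (hπ : ∀ a : A, ¬ IsUnit a → π a = 0)
    (x' : LaurentSeries A) (hx0 : x'.order ≠ 0) (hx : (coeffMap π x').order ≠ 0)
    (u v : A[X]) (hu : u.map π ≠ 0) (huv : evHom x' u * jqModC A = evHom x' v)
    {b : LaurentSeries L} (hb : b ∈ laurentBaseChange L (modularFunctionFieldFull N))
    (hV : InGauss A π b) (hint : (psiL A x').IsIntegralElem b) :
    (phi A x').IsIntegralElem b := by
  obtain ⟨S, hS, hSb⟩ := exists_denominator_coord A π N core x' hx0 hx u v hu huv hb hV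
  have h := isIntegralElem_descent A (psiL A x') (psiL_injective A x' hx0) S
    (map_residue_ne_zero A π hπ hS) b
    (by rw [psiL_comp, psiL_map]; exact hSb) hint
  rwa [psiL_comp] at h

/-- `phi A x' P` has coefficients in `A`. -/
theorem phi_mem_range (x' : LaurentSeries A) (P : A[X]) :
    phi A x' P ∈ (coeffMap A.subtype).range :=
  ⟨evHom x' P, rfl⟩

theorem C_mem_range (a : A) :
    (HahnSeries.C (Γ := ℤ) (a : L) : LaurentSeries L) ∈ (coeffMap A.subtype).range :=
  ⟨HahnSeries.C a, Fermat.Agent.S18.H516.coeffMap_C A.subtype a⟩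

/-- Every element of `F_L` has a nonzero denominator in `A((q))`. -/
theorem exists_series_denominator (π : A →+* k) (core : CoreData N k) {b : LaurentSeries L}
    (hb : b ∈ laurentBaseChange L (modularFunctionFieldFull N)) :
    ∃ d : LaurentSeries A, d ≠ 0 ∧
      coeffMap A.subtype d * b ∈ (coeffMap A.subtype).range := by
  by_cases hb0 : b = 0
  · exact ⟨1, one_ne_zero, by rw [hb0, mul_zero]; exact Subring.zero_mem _⟩
  obtain ⟨c, U₁, U₂, hc, h₁, h₂, heq⟩ := exists_gauss_decomp A π N core hb hb0
  have hU₂ : coeffMap A.subtype U₂ ≠ 0 := by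
    intro h0
    apply h₂.2.2
    have : U₂ = 0 := incl_injective A (by rw [h0, map_zero])
    rw [this, map_zero]
  rcases A.mem_or_inv_mem c with hcA | hcA
  · refine ⟨U₂, fun h0 => hU₂ (by rw [h0, map_zero]), ?_⟩
    rw [mul_comm, heq]
    exact Subring.mul_mem _ (C_mem_range A ⟨c, hcA⟩) ⟨U₁, rfl⟩
  · refine ⟨HahnSeries.C ⟨c⁻¹, hcA⟩ * U₂, ?_, ?_⟩
    · intro h0
      have h1 := congrArg (coeffMap A.subtype) h0
      rw [map_mul, map_zero, Fermat.Agent.S18.H516.coeffMap_C] at h1
      rcases mul_eq_zero.mp h1 with h | h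
      · exact HahnSeries.C_ne_zero (inv_ne_zero hc) h
      · exact hU₂ h
    · rw [map_mul, Fermat.Agent.S18.H516.coeffMap_C, mul_assoc, mul_comm _ b, heq, ← mul_assoc,
        ← map_mul]
      have : (A.subtype ⟨c⁻¹, hcA⟩) * c = 1 := inv_mul_cancel₀ hc
      rw [this, map_one, one_mul]
      exact ⟨U₁, rfl⟩

/-- **INT-Q**: an element of `F_L` integral over `A[x']` has coefficients in `A`. -/
theorem exists_series_of_isIntegralElem (π : A →+* k) (core : CoreData N k) (harch : ArchVal A)
    (x' : LaurentSeries A) {b : LaurentSeries L}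
    (hb : b ∈ laurentBaseChange L (modularFunctionFieldFull N))
    (hint : (phi A x').IsIntegralElem b) :
    ∃ y : LaurentSeries A, coeffMap A.subtype y = b := by
  classical
  obtain ⟨p, hp, hpb⟩ := hint
  obtain ⟨d, hd0, hdb⟩ := exists_series_denominator A N π core hb
  set n := p.natDegree with hn
  -- the integrality equation
  have hpow : b ^ n = -∑ i ∈ Finset.range n, phi A x' (p.coeff i) * b ^ i := by
    rw [Polynomial.eval₂_eq_sum_range, Finset.sum_range_succ, ← hn] at hpb
    have hlead : p.coeff n = 1 := hp.coeff_natDegree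
    rw [hlead, map_one, one_mul] at hpb
    exact eq_neg_of_add_eq_zero_right hpb
  have hd' : coeffMap A.subtype d ≠ 0 := fun h0 => hd0 (incl_injective A (by rw [h0, map_zero]))
  have hdn : d ^ n ≠ 0 := by
    intro h0
    have := congrArg (coeffMap A.subtype) h0
    rw [map_pow, map_zero] at this
    exact hd' (eq_zero_of_pow_eq_zero this)
  refine exists_coeffMap_eq_of_forall_pow A harch b (d ^ n) hdn ?_
  intro m
  induction m using Nat.strong_induction_on with
  | _ m ih =>
    rcases Nat.lt_or_ge m n with hlt | hge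
    · have e : coeffMap A.subtype (d ^ n) * b ^ m =
          coeffMap A.subtype d ^ (n - m) * (coeffMap A.subtype d * b) ^ m := by
        rw [map_pow, mul_pow, ← mul_assoc, ← pow_add, Nat.sub_add_cancel hlt.le]
      rw [e]
      have hdmem : coeffMap A.subtype d ∈ (coeffMap A.subtype).range := ⟨d, rfl⟩
      exact Subring.mul_mem _ (Subring.pow_mem _ hdmem _) (Subring.pow_mem _ hdb _)
    · have e : b ^ m = -∑ i ∈ Finset.range n, phi A x' (p.coeff i) * b ^ (m - n + i) := by
        conv_lhs => rw [← Nat.sub_add_cancel hge, pow_add, hpow]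
        rw [mul_neg, Finset.mul_sum]
        congr 1
        refine Finset.sum_congr rfl fun i _ => ?_
        rw [pow_add]
        ring
      rw [e, mul_neg, Finset.mul_sum]
      refine Subring.neg_mem _ (Subring.sum_mem _ fun i hi => ?_)
      have hi' : m - n + i < m := by
        have := Finset.mem_range.mp hi
        omega
      have e2 : coeffMap A.subtype (d ^ n) * (phi A x' (p.coeff i) * b ^ (m - n + i)) =
          phi A x' (p.coeff i) * (coeffMap A.subtype (d ^ n) * b ^ (m - n + i)) := by ring
      rw [e2]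
      exact Subring.mul_mem _ (phi_mem_range A x' _) (ih _ hi')

/-- **KER** (`q`-expansion principle, kernel form): an integral element of the chart whose
reduction vanishes is a constant of the maximal ideal times an integral element of the chart
(with nonzero reduction). -/
theorem exists_eq_C_mul_of_red_eq_zero (core : CoreData N k)
    (hπ : ∀ a : A, ¬ IsUnit a → π a = 0) (harch : ArchVal A)
    (x' : LaurentSeries A) (hx0 : x'.order ≠ 0) (hx : (coeffMap π x').order ≠ 0)
    (u v : A[X]) (hu : u.map π ≠ 0) (huv : evHom x' u * jqModC A = evHom x' v)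
    (y : LaurentSeries A)
    (hy : coeffMap A.subtype y ∈ laurentBaseChange L (modularFunctionFieldFull N))
    (hint : (phi A x').IsIntegralElem (coeffMap A.subtype y)) (hred : coeffMap π y = 0) :
    ∃ (μ : A) (y' : LaurentSeries A), π μ = 0 ∧ y = HahnSeries.C μ * y' ∧
      coeffMap A.subtype y' ∈ laurentBaseChange L (modularFunctionFieldFull N) ∧
      (phi A x').IsIntegralElem (coeffMap A.subtype y') ∧ (y ≠ 0 → coeffMap π y' ≠ 0) := by
  by_cases hy0 : y = 0
  · refine ⟨0, 0, map_zero _, by rw [hy0, mul_zero], ?_, ?_, fun h => absurd hy0 h⟩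
    · rw [map_zero]; exact zero_mem _
    · rw [map_zero]; exact (phi A x').isIntegralElem_zero
  have hb0 : coeffMap A.subtype y ≠ 0 := fun h0 => hy0 (incl_injective A (by rw [h0, map_zero]))
  obtain ⟨c, U₁, U₂, hc, h₁, h₂, heq⟩ := exists_gauss_decomp A π N core hy hb0
  -- `c` is a non-unit of `A`
  have hcinv : c⁻¹ ∉ A := by
    intro hcA
    have h1 : HahnSeries.C ⟨c⁻¹, hcA⟩ * (y * U₂) = U₁ := by
      apply incl_injective A
      rw [map_mul, map_mul, Fermat.Agent.S18.H516.coeffMap_C, heq]
      show HahnSeries.C c⁻¹ * (HahnSeries.C c * _) = _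
      rw [← mul_assoc, ← map_mul, inv_mul_cancel₀ hc, map_one, one_mul]
    have hk := congrArg (coeffMap π) h1
    rw [map_mul, map_mul, hred, zero_mul, mul_zero] at hk
    exact h₁.2.2 hk.symm
  obtain ⟨hcA, hcres⟩ := residue_eq_zero_of_inv_not_mem A hcinv
  have hcunit : ¬ IsUnit (⟨c, hcA⟩ : A) := by
    intro hu'
    exact ((IsLocalRing.residue_ne_zero_iff_isUnit _).mpr hu') hcres
  have hπc : π ⟨c, hcA⟩ = 0 := hπ _ hcunit
  -- the quotient `b' = y / c`
  set b' : LaurentSeries L := HahnSeries.C c⁻¹ * coeffMap A.subtype y with hb'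
  have hb'mem : b' ∈ laurentBaseChange L (modularFunctionFieldFull N) :=
    mul_mem (C_mem_baseChange N c⁻¹) hy
  have hb'eq : b' * coeffMap A.subtype U₂ = coeffMap A.subtype U₁ := by
    rw [hb', mul_assoc, heq, ← mul_assoc, ← map_mul, inv_mul_cancel₀ hc, map_one, one_mul]
  have hV : InGauss A π b' := ⟨U₁, U₂, h₂.2.2, hb'eq⟩
  have hintL : (psiL A x').IsIntegralElem b' := by
    refine RingHom.IsIntegralElem.mul _ ?_ ?_
    · have : (HahnSeries.C c⁻¹ : LaurentSeries L) = psiL A x' (Polynomial.C c⁻¹) := by
        rw [psiL, evHom_C]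
      rw [this]
      exact (psiL A x').isIntegralElem_map
    · exact RingHom.IsIntegralElem.of_comp (f := Polynomial.mapRingHom A.subtype)
        (g := psiL A x') (by rw [psiL_comp]; exact hint)
  have hintA : (phi A x').IsIntegralElem b' :=
    isIntegralElem_of_field A π N core hπ x' hx0 hx u v hu huv hb'mem hV hintL
  obtain ⟨y', hy'⟩ := exists_series_of_isIntegralElem A N π core harch x' hb'mem hintA
  refine ⟨⟨c, hcA⟩, y', hπc, ?_, by rw [hy']; exact hb'mem, by rw [hy']; exact hintA, fun _ => ?_⟩
  · apply incl_injective A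
    rw [map_mul, Fermat.Agent.S18.H516.coeffMap_C, hy', hb', ← mul_assoc, ← map_mul]
    have : (A.subtype ⟨c, hcA⟩) * c⁻¹ = 1 := mul_inv_cancel₀ hc
    rw [this, map_one, one_mul]
  · intro h0
    have h1 : y' * U₂ = U₁ := by
      apply incl_injective A
      rw [map_mul, hy', hb'eq]
    have hk := congrArg (coeffMap π) h1
    rw [map_mul, h0, zero_mul] at hk
    exact h₁.2.2 hk.symm

end Qep

end Fermat.Agent.S37.H700
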